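import Fermat.Agent.S27x.Base.Contract
import Fermat.Agent.S27x.G3.SetupOfAdjoin
import Fermat.Agent.S27x.G3.Genus

/-!
# P-S27 block C: the base-case descent `Base.BCFinOut` (helper77)

`bcFinOut : Base.BCFinOut.{u, u', v, v'}` — the literal `Prop` of `S27x/Base/Contract.lean`, in four
independent universes: for `K ⊆ L` algebraically closed, `char K = 0`, `F₀ / K` and `F₁ / L` curves
with `F₁ = L · F₀`, the genus is invariant, and so is `#Pic⁰[n]` as soon as the `n`-torsion of
`Pic⁰(F₁)` is finite.

Assembly of
* `G3.setupOfAdjoin` (helper79): the abstract base-change setup, linear disjointness automatic;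
* `Glue.exists_transcendental_finiteDimensional`: a transcendental `x : F₀` with `F₀ / K(x)` finite;
* `G3.genusFF_eq`, `G3.card_torsion_eq` (helper93).
-/

set_option autoImplicit false
set_option linter.style.haveILetI false

noncomputable section

namespace Fermat.Agent.S27x.BC

open AlgebraicCurve IntermediateField

universe u u' v v'

/-- **Block C for the base case**: the descent `L → K` of the genus and of the finite torsion
counts. -/
theorem bcFinOut : Fermat.Agent.S27x.Base.BCFinOut.{u, u', v, v'} := by
  intro K L F₀ F₁ _ _ _ _ _ _ _ _ _ _ _ _ _ _ _ _ _ _ hgen hfin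
  obtain ⟨x, hx, hfd, -⟩ := Fermat.Agent.S27x.Glue.exists_transcendental_finiteDimensional
    (K := K) (F := F₀)
  haveI := hfd
  let S : Fermat.Agent.Gateway.BaseChange.Setup K L F₀ F₁ :=
    Fermat.Agent.S27x.G3.setupOfAdjoin (K := K) hgen
  refine ⟨(Fermat.Agent.S27x.G3.genusFF_eq S hx).symm, ?_⟩
  intro n hn
  haveI := hfin n hn
  exact Fermat.Agent.S27x.G3.card_torsion_eq S hx n

end Fermat.Agent.S27x.BC
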