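import Mathlib
import Fermat.Agent.S27x.Desc.T2
import Fermat.Agent.S27x.Desc.FieldOfDef
import Fermat.Agent.S27x.Glue.SeparatingElement
import Fermat.Agent.S27x.G3.Main
import Fermat.Agent.S27x.G3.Genus
import Fermat.Agent.S27x.G3.SetupOfAdjoin

/-!
# P-S27, block C, assembly (helper17): `G3Core` and `Contract.T2`

* `g3Core : Desc.G3Core` — for algebraically closed `K ⊆ L` of characteristic zero and
  `F₁ = L · F₀` (the literal hypotheses of `Contract.BlockBC`): the genus is invariant
  (`G3.genusFF_eq`, helper93), there is a base-change `Setup K L F₀ F₁` with `ι = algebraMap`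
  (`G3.setupOfAdjoin`, helper79: linear disjointness is automatic), and base change
  `Pic⁰(F₀) → Pic⁰(F₁)` is injective (`G3.bcPic0_injective_cz`, helper93).
* `t2 : Contract.T2` — the reduction of the torsion count over an arbitrary algebraically closed
  field of characteristic zero to constant fields algebraic over a finitely generated field
  (`Desc.t2_of_g3Core`).
-/

set_option autoImplicit false
set_option linter.unusedSectionVars false
set_option linter.style.haveILetI false

noncomputable section

open AlgebraicCurve IntermediateField

namespace Fermat.Agent.S27x.BC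

open Fermat.Agent.S27x.Contract Fermat.Agent.Gateway.BaseChange

universe u v

/-- **Block C, core**: genus invariance, the base-change setup and injectivity of `bcPic0`
from the literal `BlockBC` hypotheses. -/
theorem g3Core : Desc.G3Core.{u, v} := by
  intro K L F₀ F₁ _ _ _ _ _ _ _ _ _ _ _ _ _ _ _ _ _ _ hgen
  obtain ⟨x, hx, hfd, -⟩ := Glue.exists_transcendental_finiteDimensional (K := K) (F := F₀)
  haveI := hfd
  refine ⟨(G3.genusFF_eq (G3.setupOfAdjoin (K := K) hgen) hx).symm,
    G3.setupOfAdjoin (K := K) hgen, fun f => rfl, fun hK => ?_⟩
  exact G3.bcPic0_injective_cz _ hx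

/-- **(T2)**: it suffices to prove the torsion count over constant fields algebraic over a
finitely generated field. -/
theorem t2 : Contract.T2.{u, v} :=
  Desc.t2_of_g3Core g3Core

end Fermat.Agent.S27x.BC
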