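/-
P-S27, block C (helper77): invariance of the genus under extension of the (algebraically closed)
constant field.

Setting: helper15's abstract base change setup `S : Gateway.BaseChange.Setup K L F0 F1`
(`ι : F0 →+* F1`, `K → L` compatible, `L` and `ι F0` linearly disjoint over `K`, `F1 = L(ι F0)`),
`K`, `L` algebraically closed of characteristic zero, `x : F0` transcendental over `K` with
`F0 / K(x)` finite.

* `transcendental_iota` : `ι x` is transcendental over `L`;
* `finiteDimensional_iota` : `F1 / L(ι x)` is finite;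
* `ord_sub_const_eq_one` : a place of `F1` which is trivial on `ι F0` (i.e. not an extended
  place) is unramified over the `x`-line: `ord_w (ι x - c) = 1`;
* `genusFF_eq` : `genusFF K F0 = genusFF L F1`.

Proof of the genus equality: both genera are `(deg div(dx) + 2) / 2`
(`Lib/RiemannRoch/GenusCompare.riemannRoch_dx_cz`), the order of `dx` at a place is
`ord (x - a) - 1` resp. `ord x - 1` (`S24.RH.FFData`), at extended places the two sides agree,
at the other places `ord_sub_const_eq_one` gives `0`; so `div(d ιx) = bc (div dx)`.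
-/
import Fermat.Agent.Gateway.BaseChange.BCDiv
import Fermat.Agent.S24.FFDataAll
import Fermat.Agent.Lib.RiemannRoch.GenusCompare

set_option autoImplicit false
set_option linter.unusedSectionVars false
set_option linter.style.haveILetI false

noncomputable section

open AlgebraicCurve IntermediateField Polynomial KaehlerDifferential TensorProduct

namespace Fermat.Agent.S27x.BC.Genus

open Fermat.Agent.Gateway.BaseChange Fermat.Agent.S24

variable {K L F0 F1 : Type*} [Field K] [Field L] [Field F0] [Field F1]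
  [Algebra K L] [Algebra K F0] [Algebra L F1] (S : Setup K L F0 F1)

/-! ### Constants -/

/-- A non-constant function of `F0` stays non-constant in `F1`. -/
theorem iota_notMem_range {x : F0} (hx : x ∉ Set.range (algebraMap K F0)) :
    S.ι x ∉ Set.range (algebraMap L F1) := by
  rintro ⟨c, hc⟩
  by_cases hcK : c ∈ Set.range (algebraMap K L)
  · obtain ⟨a, rfl⟩ := hcK
    rw [← S.ι_const] at hc
    exact hx ⟨a, S.ι.injective hc⟩
  · have hli : LinearIndependent K ![(1 : L), c] := by
      rw [LinearIndependent.pair_iff]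
      intro s t hst
      have ht : t = 0 := by
        by_contra ht
        apply hcK
        refine ⟨-s / t, ?_⟩
        have h1 : t • c = -(s • (1 : L)) := eq_neg_of_add_eq_zero_right hst
        rw [Algebra.smul_def, Algebra.smul_def, mul_one] at h1
        have ht' : algebraMap K L t ≠ 0 := by simpa using ht
        rw [map_div₀, map_neg, div_eq_iff ht', ← h1, mul_comm]
      subst ht
      rw [zero_smul, add_zero, Algebra.smul_def, mul_one] at hst
      exact ⟨by simpa using hst, rfl⟩
    have h1 := S.linDisj 2 ![1, c] ![x, -1] hli (by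
      simp only [Fin.sum_univ_two, Matrix.cons_val_zero, Matrix.cons_val_one, map_one, one_mul,
        map_neg, mul_neg, mul_one]
      rw [hc, add_neg_cancel]) 1
    simp at h1

/-- An element of an extension field which is algebraic over an algebraically closed field is a
constant. -/
theorem mem_range_of_isAlgebraic [IsAlgClosed L] {z : F1} (hz : IsAlgebraic L z) :
    z ∈ Set.range (algebraMap L F1) := by
  have hint : IsIntegral L z := hz.isIntegral
  have h1 := IsAlgClosed.degree_eq_one_of_irreducible L (minpoly.irreducible hint)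
  exact minpoly.mem_range_of_degree_eq_one L z h1

/-- `ι x` is transcendental over `L` if `x` is transcendental over `K`. -/
theorem transcendental_iota [IsAlgClosed L] {x : F0} (hx : Transcendental K x) :
    Transcendental L (S.ι x) := by
  intro halg
  have hx' : x ∉ Set.range (algebraMap K F0) := by
    rintro ⟨a, rfl⟩
    exact hx (isAlgebraic_algebraMap a)
  exact iota_notMem_range S hx' (mem_range_of_isAlgebraic halg)

/-! ### Finiteness of `F1 / L(ι x)` -/

theorem iota_comp_algebraMap :
    S.ι.comp (algebraMap K F0) = (algebraMap L F1).comp (algebraMap K L) :=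
  RingHom.ext S.ι_const

theorem iota_aeval (x : F0) (p : K[X]) :
    S.ι (aeval x p) = aeval (S.ι x) (p.map (algebraMap K L)) := by
  rw [aeval_def, aeval_def, hom_eval₂, eval₂_map, iota_comp_algebraMap]

/-- `ι` maps `K(x)` into `L(ι x)`. -/
theorem iota_mem_adjoin {x r : F0} (hr : r ∈ K⟮x⟯) : S.ι r ∈ L⟮S.ι x⟯ := by
  rw [IntermediateField.mem_adjoin_simple_iff] at hr ⊢
  obtain ⟨p, q, rfl⟩ := hr
  exact ⟨p.map (algebraMap K L), q.map (algebraMap K L), by
    rw [map_div₀, iota_aeval, iota_aeval]⟩

/-- The restriction `K(x) → L(ι x)` of `ι`. -/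
def iotaAdjoin (x : F0) : K⟮x⟯ →+* L⟮S.ι x⟯ :=
  (S.ι.comp (algebraMap K⟮x⟯ F0)).codRestrict L⟮S.ι x⟯ fun r => iota_mem_adjoin S r.2

theorem algebraMap_iotaAdjoin (x : F0) (r : K⟮x⟯) :
    algebraMap L⟮S.ι x⟯ F1 (iotaAdjoin S x r) = S.ι (r : F0) := rfl

/-- `F1` is finite over `L(ι x)` if `F0` is finite over `K(x)`. -/
theorem finiteDimensional_iota {x : F0} [FiniteDimensional K⟮x⟯ F0] :
    FiniteDimensional L⟮S.ι x⟯ F1 := by
  classical
  let b := Module.finBasis K⟮x⟯ F0
  let T : Set F1 := Set.range fun i => S.ι (b i)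
  haveI : Finite T := Set.finite_range _
  have hint : ∀ z ∈ T, IsIntegral L⟮S.ι x⟯ z := by
    rintro _ ⟨i, rfl⟩
    exact IsIntegral.map_of_comp_eq (iotaAdjoin S x) S.ι
      (RingHom.ext fun r => algebraMap_iotaAdjoin S x r)
      (Algebra.IsIntegral.isIntegral (R := K⟮x⟯) (b i))
  haveI hfd : FiniteDimensional L⟮S.ι x⟯ (IntermediateField.adjoin L⟮S.ι x⟯ T) :=
    IntermediateField.finiteDimensional_adjoin hint
  have htop : IntermediateField.adjoin L⟮S.ι x⟯ T = ⊤ := by
    have h1 : (IntermediateField.adjoin L⟮S.ι x⟯ T).toSubfield = ⊤ := by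
      apply S.gen
      · intro c
        have : algebraMap L F1 c = algebraMap L⟮S.ι x⟯ F1 (algebraMap L L⟮S.ι x⟯ c) := rfl
        rw [this]
        exact (IntermediateField.adjoin L⟮S.ι x⟯ T).algebraMap_mem _
      · intro f
        have hf : f = ∑ i, ((b.repr f i : K⟮x⟯) : F0) * b i := by
          conv_lhs => rw [← b.sum_repr f]
          refine Finset.sum_congr rfl fun i _ => ?_
          rw [Algebra.smul_def]
          rfl
        rw [hf, map_sum]
        refine Subfield.sum_mem _ fun i _ => ?_
        rw [map_mul]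
        refine Subfield.mul_mem _ ?_ ?_
        · rw [← algebraMap_iotaAdjoin S x (b.repr f i)]
          exact (IntermediateField.adjoin L⟮S.ι x⟯ T).algebraMap_mem _
        · exact IntermediateField.subset_adjoin _ _ ⟨i, rfl⟩
    apply IntermediateField.toSubfield_injective
    rw [h1]
    rfl
  rw [htop] at hfd
  exact Module.Finite.equiv (IntermediateField.topEquiv (F := L⟮S.ι x⟯) (E := F1)).toLinearEquiv

/-! ### Abstract core: the kernel of a point of `L ⊗ F0` is locally generated by `x - c` -/

section Core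

variable {K L F0 T : Type*} [Field K] [Field L] [Field F0] [CommRing T] [Algebra K L]
  [Algebra K F0]
  (incL : L →+* T) (incF : F0 →+* T)

/-- `p ↦ 1 ⊗ p(x)`. -/
def Phi1 (x : F0) : K[X] →+* T := incF.comp (aeval x : K[X] →ₐ[K] F0).toRingHom

/-- `p ↦ p(c) ⊗ 1`. -/
def Phi2 (c : L) : K[X] →+* T := incL.comp (eval₂RingHom (algebraMap K L) c)

omit [Algebra K L] in
theorem Phi1_apply (x : F0) (p : K[X]) : Phi1 incF x p = incF (aeval x p) := rfl

omit [Algebra K F0] in
theorem Phi2_apply (c : L) (p : K[X]) : Phi2 incL c p = incL (eval₂ (algebraMap K L) c p) := rfl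

variable (hcompat : ∀ a : K, incL (algebraMap K L a) = incF (algebraMap K F0 a))
include hcompat

theorem Phi_sub (x : F0) (c : L) (p : K[X]) :
    ∃ g : T, Phi1 incF x p - Phi2 incL c p = (incF x - incL c) * g := by
  have h1 : Phi1 incF x p = (p.map (incL.comp (algebraMap K L))).eval (incF x) := by
    rw [Phi1_apply, aeval_def, hom_eval₂, eval_map]
    congr 1
    exact RingHom.ext fun a => (hcompat a).symm
  have h2 : Phi2 incL c p = (p.map (incL.comp (algebraMap K L))).eval (incL c) := by
    rw [Phi2_apply, hom_eval₂, eval_map]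
  obtain ⟨g, hg⟩ := Polynomial.sub_dvd_eval_sub (incF x) (incL c)
    (p.map (incL.comp (algebraMap K L)))
  exact ⟨g, by rw [h1, h2, hg]⟩

theorem evalPhi_sub (x : F0) (c : L) (P : K[X][X]) (y : T) :
    ∃ H : T, (P.map (Phi1 incF x)).eval y - (P.map (Phi2 incL c)).eval y
      = (incF x - incL c) * H := by
  induction P using Polynomial.induction_on' with
  | add P₁ P₂ h₁ h₂ =>
    obtain ⟨H₁, hH₁⟩ := h₁
    obtain ⟨H₂, hH₂⟩ := h₂
    refine ⟨H₁ + H₂, ?_⟩
    rw [Polynomial.map_add, Polynomial.map_add, eval_add, eval_add, mul_add, ← hH₁, ← hH₂]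
    ring
  | monomial n p =>
    obtain ⟨g, hg⟩ := Phi_sub incL incF hcompat x c p
    refine ⟨g * y ^ n, ?_⟩
    rw [map_monomial, map_monomial, eval_monomial, eval_monomial, ← sub_mul, hg]
    ring


variable (ε : T →+* L) (hεL : ∀ l, ε (incL l) = l)
include hεL

theorem eps_Phi1 (x : F0) (p : K[X]) :
    ε (Phi1 incF x p) = eval₂ (algebraMap K L) (ε (incF x)) p := by
  obtain ⟨g, hg⟩ := Phi_sub incL incF hcompat x (ε (incF x)) p
  have h1 : ε (Phi1 incF x p - Phi2 incL (ε (incF x)) p) = 0 := by
    rw [hg, map_mul, map_sub, hεL, sub_self, zero_mul]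
  rw [map_sub, sub_eq_zero] at h1
  rw [h1, Phi2_apply, hεL]

theorem eps_evalPhi1 (x : F0) (P : K[X][X]) (y : T) :
    ε ((P.map (Phi1 incF x)).eval y)
      = (P.map (eval₂RingHom (algebraMap K L) (ε (incF x)))).eval (ε y) := by
  rw [eval_map, hom_eval₂, eval_map]
  congr 1
  exact RingHom.ext fun p => eps_Phi1 incL incF hcompat ε hεL x p

/-- **Core lemma**: if `f` is a simple root of `P(x, Y)`, `P ∈ K[X][Y]`, then
`f - f(w)` is divisible by `x - x(w)` up to a factor which does not vanish at `w`. -/
theorem coreA (x f : F0) (P : K[X][X])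
    (hP0 : P.eval₂ (aeval x : K[X] →ₐ[K] F0).toRingHom f = 0)
    (hP' : ε (incF ((derivative P).eval₂ (aeval x : K[X] →ₐ[K] F0).toRingHom f)) ≠ 0) :
    ∃ d h : T, ε d ≠ 0 ∧
      (incF f - incL (ε (incF f))) * d = (incF x - incL (ε (incF x))) * h := by
  set c : L := ε (incF x) with hc
  set b : L := ε (incF f) with hb
  set ev : K[X] →+* L := eval₂RingHom (algebraMap K L) c with hev
  set Q : L[X] := P.map ev with hQ
  have hc1 : ∀ P' : K[X][X], (P'.map (Phi1 incF x)).eval (incF f)
      = incF (P'.eval₂ (aeval x : K[X] →ₐ[K] F0).toRingHom f) := by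
    intro P'
    rw [eval_map, hom_eval₂]
    rfl
  have hf : ∀ P' : K[X][X], ε (incF (P'.eval₂ (aeval x : K[X] →ₐ[K] F0).toRingHom f))
      = (P'.map ev).eval b := by
    intro P'
    rw [← hc1, eps_evalPhi1 incL incF hcompat ε hεL]
  have hQb : Q.eval b = 0 := by
    rw [hQ, ← hf, hP0, map_zero, map_zero]
  have hQ'b : (derivative Q).eval b ≠ 0 := by
    rw [hQ, derivative_map, ← hf]
    exact hP'
  have hfac : (X - C b) * (Q /ₘ (X - C b)) = Q := mul_divByMonic_eq_iff_isRoot.mpr hQb
  set Q₁ : L[X] := Q /ₘ (X - C b) with hQ₁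
  have hQ1b : Q₁.eval b = (derivative Q).eval b := by
    conv_rhs => rw [← hfac]
    rw [derivative_mul, eval_add, eval_mul, eval_mul, derivative_sub, derivative_X, derivative_C,
      sub_zero, eval_one, one_mul, eval_sub, eval_X, eval_C, sub_self, zero_mul, add_zero]
  have hεd : ε ((Q₁.map incL).eval (incF f)) = Q₁.eval b := by
    rw [eval_map, hom_eval₂]
    have : ε.comp incL = RingHom.id L := RingHom.ext hεL
    rw [this, eval₂_id]
  obtain ⟨H, hH⟩ := evalPhi_sub incL incF hcompat x c P (incF f)
  refine ⟨(Q₁.map incL).eval (incF f), -H, ?_, ?_⟩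
  · rw [hεd, hQ1b]
    exact hQ'b
  · have h2 : P.map (Phi2 incL c) = Q.map incL := by
      rw [hQ, Polynomial.map_map]
      rfl
    have h3 : (Q.map incL).eval (incF f) = (incF f - incL b) * (Q₁.map incL).eval (incF f) := by
      conv_lhs => rw [← hfac]
      rw [Polynomial.map_mul, eval_mul, Polynomial.map_sub, map_X, map_C, eval_sub, eval_X,
        eval_C]
    rw [hc1, hP0, map_zero, h2, h3, zero_sub] at hH
    rw [mul_neg, ← hH, neg_neg]

end Core


/-! ### Existence of a polynomial relation with a simple root -/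

section SimpleRoot

variable {K F0 : Type*} [Field K] [Field F0] [Algebra K F0] [CharZero K]

theorem exists_simple_root_poly {x : F0} (hx : Transcendental K x) [FiniteDimensional K⟮x⟯ F0]
    (f : F0) :
    ∃ P : K[X][X], P.eval₂ (aeval x : K[X] →ₐ[K] F0).toRingHom f = 0 ∧
      (derivative P).eval₂ (aeval x : K[X] →ₐ[K] F0).toRingHom f ≠ 0 := by
  set ψ : K[X] →+* F0 := (aeval x : K[X] →ₐ[K] F0).toRingHom with hψ
  have hinj : Function.Injective ψ := transcendental_iff_injective.mp hx
  have halg : ∃ P : K[X][X], P ≠ 0 ∧ P.eval₂ ψ f = 0 := by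
    letI := Fermat.Agent.Lib.RiemannRoch.XSetting.polyAlgebra (K := K) x
    haveI := Fermat.Agent.Lib.RiemannRoch.XSetting.isFractionRing_polyAlgebra hx
    letI a2 : Algebra K[X] F0 := ψ.toAlgebra
    haveI : IsScalarTower K[X] K⟮x⟯ F0 := IsScalarTower.of_algebraMap_eq (fun p => by
      show ψ p = algebraMap K⟮x⟯ F0 (aeval (AdjoinSimple.gen K x) p)
      rw [← aeval_algebraMap_apply, AdjoinSimple.algebraMap_gen]
      rfl)
    have h1 : IsAlgebraic K⟮x⟯ f := Algebra.IsAlgebraic.isAlgebraic f
    have h2 : IsAlgebraic K[X] f := (IsFractionRing.isAlgebraic_iff K[X] K⟮x⟯ F0).mpr h1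
    obtain ⟨P, hP0, hP⟩ := h2
    exact ⟨P, hP0, by rwa [aeval_def] at hP⟩
  have key : ∀ n : ℕ, ∀ P : K[X][X], P ≠ 0 → P.natDegree = n → P.eval₂ ψ f = 0 →
      ∃ P : K[X][X], P.eval₂ ψ f = 0 ∧ (derivative P).eval₂ ψ f ≠ 0 := by
    intro n
    induction n using Nat.strong_induction_on with
    | _ n ih =>
      intro P hP0 hn hP
      by_cases hd : (derivative P).eval₂ ψ f = 0
      · have hn0 : P.natDegree ≠ 0 := by
          intro h0
          have hC := eq_C_of_natDegree_eq_zero h0
          rw [hC, eval₂_C] at hP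
          have : P.coeff 0 = 0 := hinj (by rw [hP, map_zero])
          rw [this, map_zero] at hC
          exact hP0 hC
        have hd0 : derivative P ≠ 0 := derivative_ne_zero.mpr hn0
        exact ih _ (hn ▸ natDegree_derivative_lt hn0) (derivative P) hd0 rfl hd
      · exact ⟨P, hP, hd⟩
  obtain ⟨P, hP0, hP⟩ := halg
  exact key _ P hP0 rfl hP

end SimpleRoot

/-! ### Generic places are unramified over the `x`-line -/

section Unramified

variable [IsAlgClosed K] [CharZero K]
variable {x : F0} (hx : Transcendental K x) [FiniteDimensional K⟮x⟯ F0]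
variable (w : Place L F1) (hw : ∀ f : F0, w.ord (S.ι f) = 0)
  (hres : Function.Surjective (algebraMap L w.ResidueField))

/-- `l ↦ l ⊗ 1`. -/
def incL : L →+* L ⊗[K] F0 := Algebra.TensorProduct.includeLeftRingHom

/-- `f ↦ 1 ⊗ f`. -/
def incF : F0 →+* L ⊗[K] F0 :=
  (Algebra.TensorProduct.includeRight : F0 →ₐ[K] L ⊗[K] F0).toRingHom

omit [IsAlgClosed K] [CharZero K] in
theorem incL_apply (l : L) : (incL : L →+* L ⊗[K] F0) l = l ⊗ₜ[K] (1 : F0) := rfl

omit [IsAlgClosed K] [CharZero K] in
theorem incF_apply (f : F0) : (incF : F0 →+* L ⊗[K] F0) f = (1 : L) ⊗ₜ[K] f := rfl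

omit [IsAlgClosed K] [CharZero K] in
theorem inc_compat (a : K) :
    (incL : L →+* L ⊗[K] F0) (algebraMap K L a) = incF (algebraMap K F0 a) := by
  rw [incL_apply, incF_apply, Algebra.algebraMap_eq_smul_one, Algebra.algebraMap_eq_smul_one,
    TensorProduct.smul_tmul]

omit [IsAlgClosed K] [CharZero K] in
theorem tmul_eq_inc (l : L) (f : F0) : l ⊗ₜ[K] f = (incL l : L ⊗[K] F0) * incF f := by
  rw [incL_apply, incF_apply, Algebra.TensorProduct.tmul_mul_tmul, mul_one, one_mul]

omit [IsAlgClosed K] [CharZero K] in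
theorem mu_incL (l : L) : S.mu (incL l) = algebraMap L F1 l := by
  rw [incL_apply, S.mu_tmul, map_one, mul_one]

omit [IsAlgClosed K] [CharZero K] in
theorem mu_incF (f : F0) : S.mu (incF f) = S.ι f := by
  rw [incF_apply, S.mu_tmul, map_one, one_mul]

include hw in
omit [IsAlgClosed K] [CharZero K] in
theorem mu_mem (t : L ⊗[K] F0) : S.mu t ∈ w.toValuationSubring := by
  induction t using TensorProduct.induction_on with
  | zero => rw [map_zero]; exact zero_mem _
  | tmul l f =>
    rw [S.mu_tmul]
    exact mul_mem (w.algebraMap_mem' l)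
      ((ZD.PlaceLemmas.mem_iff_ord w _).mpr (Or.inr (hw f).ge))
  | add a b ha hb => rw [map_add]; exact add_mem ha hb

/-- `μ` as a map into the valuation ring of a place which is trivial on `ι F0`. -/
def muO : L ⊗[K] F0 →+* w.toValuationSubring :=
  S.mu.codRestrict w.toValuationSubring (mu_mem S w hw)

/-- The point of `L ⊗ F0` defined by `w`. -/
def eps : L ⊗[K] F0 →+* L := ((placeRes w hres : w.toValuationSubring →ₐ[L] L) :
  w.toValuationSubring →+* L).comp (muO S w hw)

omit [IsAlgClosed K] [CharZero K] in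
theorem eps_apply (t : L ⊗[K] F0) : eps S w hw hres t = placeRes w hres (muO S w hw t) := rfl

omit [IsAlgClosed K] [CharZero K] in
theorem coe_muO (t : L ⊗[K] F0) : ((muO S w hw t : w.toValuationSubring) : F1) = S.mu t := rfl

omit [IsAlgClosed K] [CharZero K] in
theorem eps_incL (l : L) : eps S w hw hres (incL l) = l := by
  rw [eps_apply]
  have : muO S w hw (incL l) = algebraMap L w.toValuationSubring l := by
    apply Subtype.ext
    rw [coe_muO, mu_incL]
    rfl
  rw [this, AlgHom.commutes]
  rfl

omit [IsAlgClosed K] [CharZero K] in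
/-- `ε t ≠ 0` iff `μ t` is a unit at `w`. -/
theorem eps_ne_zero_iff (t : L ⊗[K] F0) :
    eps S w hw hres t ≠ 0 ↔ S.mu t ≠ 0 ∧ w.ord (S.mu t) = 0 := by
  rw [eps_apply, Ne, placeRes_eq_zero_iff]
  constructor
  · intro h
    have h0 : S.mu t ≠ 0 := by
      intro h0
      apply h
      have : muO S w hw t = 0 := Subtype.ext (by rw [coe_muO, h0]; rfl)
      rw [this]
      exact zero_mem _
    refine ⟨h0, ?_⟩
    rw [PD.place_mem_maximalIdeal_iff w _ (by rw [coe_muO]; exact h0), coe_muO] at h
    have h1 := (ZD.PlaceLemmas.mem_iff_ord w _).mp (mu_mem S w hw t)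
    rcases h1 with h1 | h1
    · exact absurd h1 h0
    · omega
  · rintro ⟨h0, h1⟩
    rw [PD.place_mem_maximalIdeal_iff w _ (by rw [coe_muO]; exact h0), coe_muO]
    omega

omit [IsAlgClosed K] [CharZero K] in
theorem ord_pos_of_eps_eq_zero {t : L ⊗[K] F0} (h0 : S.mu t ≠ 0) (h : eps S w hw hres t = 0) :
    0 < w.ord (S.mu t) := by
  rw [eps_apply, placeRes_eq_zero_iff,
    PD.place_mem_maximalIdeal_iff w _ (by rw [coe_muO]; exact h0), coe_muO] at h
  exact h

omit [IsAlgClosed K] [CharZero K] in
theorem eps_incF_ne_zero {f : F0} (hf : f ≠ 0) : eps S w hw hres (incF f) ≠ 0 := by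
  rw [eps_ne_zero_iff, mu_incF]
  exact ⟨(_root_.map_ne_zero _).mpr hf, hw f⟩

include hx in
/-- Lemma C: the kernel of `ε` is generated by `x ⊗ 1 - 1 ⊗ c` up to factors outside the kernel. -/
theorem exists_mul_eq (t : L ⊗[K] F0) :
    ∃ d h : L ⊗[K] F0, eps S w hw hres d ≠ 0 ∧
      (t - incL (eps S w hw hres t)) * d
        = (incF x - incL (eps S w hw hres (incF x))) * h := by
  induction t using TensorProduct.induction_on with
  | zero => exact ⟨1, 0, by rw [map_one]; exact one_ne_zero, by simp⟩
  | tmul l f =>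
    obtain ⟨P, hP0, hP'⟩ := exists_simple_root_poly hx f
    obtain ⟨d, h, hd, hh⟩ := coreA (incL : L →+* L ⊗[K] F0) incF (inc_compat (K := K) (L := L) (F0 := F0))
      (eps S w hw hres) (eps_incL S w hw hres) x f P hP0
      (eps_incF_ne_zero S w hw hres hP')
    refine ⟨d, incL l * h, hd, ?_⟩
    rw [tmul_eq_inc, map_mul, eps_incL, map_mul]
    calc (incL l * incF f - incL l * incL (eps S w hw hres (incF f))) * d
        = incL l * ((incF f - incL (eps S w hw hres (incF f))) * d) := by ring
      _ = _ := by rw [hh]; ring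
  | add a b ha hb =>
    obtain ⟨d₁, h₁, hd₁, hh₁⟩ := ha
    obtain ⟨d₂, h₂, hd₂, hh₂⟩ := hb
    refine ⟨d₁ * d₂, h₁ * d₂ + h₂ * d₁, ?_, ?_⟩
    · rw [map_mul]; exact mul_ne_zero hd₁ hd₂
    · rw [map_add, map_add]
      calc (a + b - (incL (eps S w hw hres a) + incL (eps S w hw hres b))) * (d₁ * d₂)
          = (a - incL (eps S w hw hres a)) * d₁ * d₂
            + (b - incL (eps S w hw hres b)) * d₂ * d₁ := by ring
        _ = _ := by rw [hh₁, hh₂]; ring

include hx in
/-- Lemma B: every nonzero element of `L ⊗ F0` is a power of `x ⊗ 1 - 1 ⊗ c` times a unit at `w`,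
up to a unit at `w`. -/
theorem exists_pow_mul_eq (he : 0 < w.ord (S.mu (incF x - incL (eps S w hw hres (incF x))))) :
    ∀ n : ℕ, ∀ t : L ⊗[K] F0, S.mu t ≠ 0 → w.ord (S.mu t) ≤ n →
      ∃ (k : ℕ) (m d : L ⊗[K] F0), eps S w hw hres m ≠ 0 ∧ eps S w hw hres d ≠ 0 ∧
        t * d = (incF x - incL (eps S w hw hres (incF x))) ^ k * m := by
  intro n
  induction n using Nat.strong_induction_on with
  | _ n ih =>
    intro t ht hord
    by_cases hε : eps S w hw hres t = 0
    · obtain ⟨d, h, hd, hh⟩ := exists_mul_eq S hx w hw hres t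
      rw [hε, map_zero, sub_zero] at hh
      obtain ⟨hd0, hdord⟩ := (eps_ne_zero_iff S w hw hres d).mp hd
      have hpos := ord_pos_of_eps_eq_zero S w hw hres ht hε
      set u : L ⊗[K] F0 := incF x - incL (eps S w hw hres (incF x)) with hu
      have hmu : S.mu t * S.mu d = S.mu u * S.mu h := by rw [← map_mul, hh, map_mul]
      have hu0 : S.mu u ≠ 0 := by
        intro h0
        rw [h0, w.ord_zero] at he
        exact lt_irrefl _ he
      have hh0 : S.mu h ≠ 0 := by
        intro h0
        rw [h0, mul_zero] at hmu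
        exact mul_ne_zero ht hd0 hmu
      have hordh : w.ord (S.mu t) + 0 = w.ord (S.mu u) + w.ord (S.mu h) := by
        rw [← hdord, ← w.ord_mul ht hd0, hmu, w.ord_mul hu0 hh0]
      have hn1 : 1 ≤ n := by omega
      obtain ⟨k, m, d', hm, hd', hk⟩ := ih (n - 1) (by omega) h hh0 (by
        rw [Nat.cast_sub hn1]; push_cast; omega)
      refine ⟨k + 1, m, d * d', hm, ?_, ?_⟩
      · rw [map_mul]; exact mul_ne_zero hd hd'
      · calc t * (d * d') = (t * d) * d' := by ring
          _ = u * (h * d') := by rw [hh]; ring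
          _ = u ^ (k + 1) * m := by rw [hk]; ring
    · exact ⟨0, t, 1, hε, by rw [map_one]; exact one_ne_zero, by simp⟩

include hx hw hres in
/-- **A place of `F1` which is trivial on `ι F0` is unramified over the `x`-line.** -/
theorem ord_sub_const_eq_one_aux (c : L)
    (hc : 0 < w.ord (S.ι x - algebraMap L F1 c)) :
    w.ord (S.ι x - algebraMap L F1 c) = 1 := by
  -- `ε (1 ⊗ x) = c`
  have hne : S.ι x - algebraMap L F1 c ≠ 0 := by
    intro h0
    rw [h0, w.ord_zero] at hc
    exact lt_irrefl _ hc
  have hεx : eps S w hw hres (incF x) = c := by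
    have h1 : eps S w hw hres (incF x - incL c) = 0 := by
      by_contra hne'
      have := ((eps_ne_zero_iff S w hw hres _).mp hne').2
      rw [map_sub, mu_incF, mu_incL] at this
      omega
    rw [map_sub, eps_incL, sub_eq_zero] at h1
    exact h1
  have hmu_u : S.mu (incF x - incL (eps S w hw hres (incF x)))
      = S.ι x - algebraMap L F1 c := by
    rw [hεx, map_sub, mu_incF, mu_incL]
  have he : 0 < w.ord (S.mu (incF x - incL (eps S w hw hres (incF x)))) := by
    rw [hmu_u]; exact hc
  set u : L ⊗[K] F0 := incF x - incL (eps S w hw hres (incF x)) with hu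
  -- orders of elements of `L ⊗ F0` are multiples of `e`
  have hmult : ∀ t : L ⊗[K] F0, S.mu t ≠ 0 → ∃ k : ℕ, w.ord (S.mu t) = k * w.ord (S.mu u) := by
    intro t ht
    have hnn : 0 ≤ w.ord (S.mu t) := by
      rcases (ZD.PlaceLemmas.mem_iff_ord w _).mp (mu_mem S w hw t) with h | h
      · exact absurd h ht
      · exact h
    obtain ⟨k, m, d, hm, hd, hk⟩ := exists_pow_mul_eq S hx w hw hres he
      (w.ord (S.mu t)).toNat t ht (by rw [Int.toNat_of_nonneg hnn])
    obtain ⟨hm0, hmord⟩ := (eps_ne_zero_iff S w hw hres m).mp hm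
    obtain ⟨hd0, hdord⟩ := (eps_ne_zero_iff S w hw hres d).mp hd
    have hu0 : S.mu u ≠ 0 := by
      intro h0
      rw [h0, w.ord_zero] at he
      exact lt_irrefl _ he
    refine ⟨k, ?_⟩
    have h1 : S.mu t * S.mu d = S.mu u ^ k * S.mu m := by
      rw [← map_mul, hk, map_mul, map_pow]
    have h2 := congrArg w.ord h1
    rw [w.ord_mul ht hd0, w.ord_mul (pow_ne_zero k hu0) hm0, hdord, hmord,
      (isAddVal_ord w).map_pow hu0 k] at h2
    omega
  obtain ⟨z, hz⟩ := ZD.PlaceLemmas.exists_ord_eq_one w
  have hz0 : z ≠ 0 := by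
    rintro rfl
    rw [w.ord_zero] at hz
    exact zero_ne_one hz
  obtain ⟨a, b, hb, hzab⟩ := S.exists_div z
  have ha : S.mu a ≠ 0 := by
    intro h0
    rw [h0, zero_div] at hzab
    exact hz0 hzab
  obtain ⟨ka, hka⟩ := hmult a ha
  obtain ⟨kb, hkb⟩ := hmult b hb
  have h3 : w.ord z = w.ord (S.mu a) - w.ord (S.mu b) := by
    rw [hzab]
    exact (isAddVal_ord w).map_div ha hb
  rw [hz, hka, hkb, ← sub_mul] at h3
  rw [hmu_u] at h3
  have h4 : w.ord (S.ι x - algebraMap L F1 c) ∣ 1 := ⟨(ka : ℤ) - kb, by rw [h3]; ring⟩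
  exact Int.eq_one_of_dvd_one hc.le h4

end Unramified

/-! ### The genus -/

section Genus

variable [IsAlgClosed K] [IsAlgClosed L] [CharZero K]
variable {x : F0} (hx : Transcendental K x) [FiniteDimensional K⟮x⟯ F0]
  (hK : ∀ v : Place K F0, Function.Surjective (algebraMap K v.ResidueField))

include hx in
/-- **Places of `F1` which are not extended from `F0` are unramified over the `x`-line**:
if `w` is not in the range of `extPlace` and `ι x - c` vanishes at `w`, it vanishes to order
one. -/
theorem ord_sub_const_eq_one (w : Place L F1) (hw : w ∉ Set.range (S.extPlace hK)) (c : L)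
    (hc : 0 < w.ord (S.ι x - algebraMap L F1 c)) :
    w.ord (S.ι x - algebraMap L F1 c) = 1 := by
  haveI : CharZero L := charZero_of_injective_algebraMap (algebraMap K L).injective
  haveI := finiteDimensional_iota S (x := x)
  have hx1 := transcendental_iota S hx
  exact ord_sub_const_eq_one_aux S hx w (S.ord_ι_eq_zero_of_notMem_range hK w hw)
    (PD.residue_surjective hx1 w) c hc

include S hx in
/-- **Invariance of the genus under extension of the algebraically closed constant field.** -/
theorem genusFF_eq : genusFF K F0 = genusFF L F1 := by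
  haveI : CharZero L := charZero_of_injective_algebraMap (algebraMap K L).injective
  haveI := finiteDimensional_iota S (x := x)
  have hx1 := transcendental_iota S hx
  have hK : ∀ v : Place K F0, Function.Surjective (algebraMap K v.ResidueField) :=
    PD.residue_surjective hx
  obtain ⟨W0, hW0, hdeg0, -⟩ :=
    Fermat.Agent.Lib.RiemannRoch.GenusCompare.riemannRoch_dx_cz (K := K) hx
  obtain ⟨W1, hW1, hdeg1, -⟩ :=
    Fermat.Agent.Lib.RiemannRoch.GenusCompare.riemannRoch_dx_cz (K := L) hx1
  have h0 := FFDataAll.ffData hx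
  have h1 := FFDataAll.ffData hx1
  have hW : W1 = S.bc hK W0 := by
    ext w
    by_cases hw : w ∈ Set.range (S.extPlace hK)
    · obtain ⟨v, rfl⟩ := hw
      rw [S.bc_apply_extPlace hK, hW1, hW0]
      rcases h0.pole_or_zero v with hp | ⟨a, ha⟩
      · have hp1 : 0 < (S.extPlace hK v).ord (S.ι x)⁻¹ := by
          rw [← map_inv₀, S.extPlace_ord]; exact hp
        rw [h0.ordDiff_pole v hp, h1.ordDiff_pole _ hp1, ← map_inv₀, S.extPlace_ord]
      · have hsub : S.ι x - algebraMap L F1 (algebraMap K L a)
            = S.ι (x - algebraMap K F0 a) := by rw [map_sub, S.ι_const]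
        have ha1 : 0 < (S.extPlace hK v).ord (S.ι x - algebraMap L F1 (algebraMap K L a)) := by
          rw [hsub, S.extPlace_ord]; exact ha
        rw [h0.ordDiff_zero v ha, h1.ordDiff_zero _ ha1, hsub, S.extPlace_ord]
    · rw [S.bc_apply_of_notMem_range hK W0 w hw, hW1]
      have hw0 := S.ord_ι_eq_zero_of_notMem_range hK w hw
      rcases h1.pole_or_zero w with hp | ⟨c, hc⟩
      · rw [← map_inv₀, hw0] at hp
        exact absurd hp (lt_irrefl _)
      · rw [h1.ordDiff_zero w hc, ord_sub_const_eq_one S hx hK w hw c hc]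
        norm_num
  have hdeg : Divisor.degree W1 = Divisor.degree W0 := by rw [hW, S.degree_bc hK]
  rw [hdeg0, hdeg1] at hdeg
  have : (genusFF L F1 : ℤ) = genusFF K F0 := by linarith
  exact_mod_cast this.symm

end Genus

end Fermat.Agent.S27x.BC.Genus
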