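import Fermat.Agent.Gateway.BaseChange.CanonConcrete

/-!
# P-S27 block C: Galois descent for an ABSTRACT base-change setup (helper86)

`S : Gateway.BaseChange.Setup K L F0 F1` (`F1 = L·ι(F0)`, `L` and `F0` linearly disjoint over
`K`).  The results of `Gateway/BaseChange/{Concrete,CanonConcrete}.lean`, proved there for the
Laurent-series model `IsBC F0 F1`, are proved here for the abstract setup:

* `Setup.gal : (L ≃ₐ[K] L) →* SemilinearAut L F1` (extension of `σ` by the identity on `ι F0`);
* `Setup.exists_ι_eq_of_fixed` : elements of `F1` fixed by `Aut(L/K)` come from `F0`;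
* `Setup.bcPic0_injective'`, `Setup.mem_range_extPlace_of_finite_orbit'`,
  `Setup.torsionEquiv`, `Setup.card_torsion_eq` (finite `n`-torsion upstairs).

The Laurent expansion `Setup.exists_laurent_extension` is only used as a tool
(equivariant leading coefficient, descent of fixed elements).
-/

set_option autoImplicit false

noncomputable section

namespace Fermat.Agent.S27x.BC.SetupGal

open AlgebraicCurve ModularCurve IntermediateField Fermat.Agent.S24
open Fermat.Agent.Gateway.BaseChange

variable {K L F0 F1 : Type*} [Field K] [Field L] [Field F0] [Field F1]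
  [Algebra K L] [Algebra K F0] [Algebra L F1] (S : Setup K L F0 F1)

/-! ### Uniqueness of extensions -/

/-- Two ring homomorphisms out of `F1` which agree on `L` and on `ι F0` are equal. -/
theorem hom_ext_of_setup {Ω : Type*} [Field Ω] (φ ψ : F1 →+* Ω)
    (hL : ∀ l : L, φ (algebraMap L F1 l) = ψ (algebraMap L F1 l))
    (hF : ∀ f : F0, φ (S.ι f) = ψ (S.ι f)) : φ = ψ := by
  have h := S.gen (φ.eqLocusField ψ) hL hF
  ext x
  have hx : x ∈ φ.eqLocusField ψ := by rw [h]; trivial
  exact hx

/-! ### The Galois action -/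

theorem exists_galHom (σ : L ≃ₐ[K] L) :
    ∃ φ : F1 →+* F1, (∀ l : L, φ (algebraMap L F1 l) = algebraMap L F1 (σ l)) ∧
      ∀ f : F0, φ (S.ι f) = S.ι f := by
  refine S.exists_extension ((algebraMap L F1).comp (σ : L →+* L)) S.ι ?_ ?_
  · intro c
    rw [RingHom.comp_apply, S.ι_const]
    congr 1
    exact σ.commutes c
  · intro n l f hl h
    have hl' : LinearIndependent K (fun i => σ (l i)) :=
      hl.map' σ.toLinearMap (LinearMap.ker_eq_bot.mpr σ.injective)
    exact S.linDisj n (fun i => σ (l i)) f hl' h

/-- The extension of `σ ∈ Aut(L/K)` to `F1`, identity on `ι F0`. -/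
def galHom (σ : L ≃ₐ[K] L) : F1 →+* F1 := Classical.choose (exists_galHom S σ)

theorem galHom_algebraMap (σ : L ≃ₐ[K] L) (l : L) :
    galHom S σ (algebraMap L F1 l) = algebraMap L F1 (σ l) :=
  (Classical.choose_spec (exists_galHom S σ)).1 l

theorem galHom_ι (σ : L ≃ₐ[K] L) (f : F0) : galHom S σ (S.ι f) = S.ι f :=
  (Classical.choose_spec (exists_galHom S σ)).2 f

theorem galHom_one : galHom S (1 : L ≃ₐ[K] L) = RingHom.id F1 :=
  hom_ext_of_setup S _ _ (fun l => by rw [galHom_algebraMap]; rfl) (fun f => by
    rw [galHom_ι]; rfl)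

theorem galHom_mul (σ τ : L ≃ₐ[K] L) :
    galHom S (σ * τ) = (galHom S σ).comp (galHom S τ) :=
  hom_ext_of_setup S _ _ (fun l => by
    rw [RingHom.comp_apply, galHom_algebraMap, galHom_algebraMap, galHom_algebraMap]; rfl)
    (fun f => by rw [RingHom.comp_apply, galHom_ι, galHom_ι, galHom_ι])

/-- The ring automorphism of `F1` induced by `σ ∈ Aut(L/K)`. -/
def galEquiv (σ : L ≃ₐ[K] L) : F1 ≃+* F1 :=
  RingEquiv.ofRingHom (galHom S σ) (galHom S σ⁻¹)
    (by rw [← galHom_mul, mul_inv_cancel, galHom_one])
    (by rw [← galHom_mul, inv_mul_cancel, galHom_one])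

@[simp]
theorem galEquiv_apply (σ : L ≃ₐ[K] L) (x : F1) : galEquiv S σ x = galHom S σ x := rfl

/-- The semilinear action of `Aut(L/K)` on `F1`. -/
def gal : (L ≃ₐ[K] L) →* SemilinearAut L F1 where
  toFun σ := ⟨(galEquiv S σ, σ.toRingEquiv), fun a => galHom_algebraMap S σ a⟩
  map_one' := by
    refine Subtype.ext (Prod.ext (RingEquiv.ext fun x => ?_) rfl)
    show galHom S 1 x = x
    rw [galHom_one]; rfl
  map_mul' σ τ := by
    refine Subtype.ext (Prod.ext (RingEquiv.ext fun x => ?_) rfl)
    show galHom S (σ * τ) x = galHom S σ (galHom S τ x)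
    rw [galHom_mul]; rfl

@[simp]
theorem baseAut_gal (σ : L ≃ₐ[K] L) : SemilinearAut.baseAut (gal S σ) = σ.toRingEquiv := rfl

theorem gal_smul (σ : L ≃ₐ[K] L) (x : F1) : gal S σ • x = galHom S σ x := rfl

theorem gal_smul_ι (σ : L ≃ₐ[K] L) (f : F0) : gal S σ • S.ι f = S.ι f := galHom_ι S σ f

theorem gal_smul_algebraMap (σ : L ≃ₐ[K] L) (a : L) :
    gal S σ • algebraMap L F1 a = algebraMap L F1 (σ a) := galHom_algebraMap S σ a

/-! ### The Laurent expansion as a tool -/

section LaurentTool

variable (v : Place K F0) (hres : Function.Surjective (algebraMap K v.ResidueField))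
  (π : v.toValuationSubring) (hπ : Irreducible π)

/-- An embedding `F1 → L((t))` extending the Laurent expansion of `F0` at `v`. -/
def laurentHom : F1 →+* LaurentSeries L :=
  Classical.choose (S.exists_laurent_extension v hres π hπ)

theorem laurentHom_algebraMap (l : L) :
    laurentHom S v hres π hπ (algebraMap L F1 l) = HahnSeries.C l :=
  (Classical.choose_spec (S.exists_laurent_extension v hres π hπ)).1 l

theorem laurentHom_ι (f : F0) :
    laurentHom S v hres π hπ (S.ι f) = iota K L (placeLaurent v hres π hπ f) :=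
  (Classical.choose_spec (S.exists_laurent_extension v hres π hπ)).2 f

theorem laurentHom_injective : Function.Injective (laurentHom S v hres π hπ) :=
  (laurentHom S v hres π hπ).injective

/-- The Laurent embedding is equivariant for the coefficientwise Galois action. -/
theorem laurentHom_gal (σ : L ≃ₐ[K] L) (x : F1) :
    laurentHom S v hres π hπ (gal S σ • x) =
      coeffMap (σ : L →+* L) (laurentHom S v hres π hπ x) := by
  have h := hom_ext_of_setup S ((laurentHom S v hres π hπ).comp (galHom S σ))
    ((coeffMap (σ : L →+* L)).comp (laurentHom S v hres π hπ))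
    (fun l => by
      rw [RingHom.comp_apply, RingHom.comp_apply, galHom_algebraMap, laurentHom_algebraMap,
        laurentHom_algebraMap, coeffMap_C']
      rfl)
    (fun f => by
      rw [RingHom.comp_apply, RingHom.comp_apply, galHom_ι, laurentHom_ι, coeffMap_iota])
  exact congrArg (fun φ : F1 →+* LaurentSeries L => φ x) h

/-- The Laurent expansion of `F0` as a `K`-algebra homomorphism. -/
def lamAlg : F0 →ₐ[K] LaurentSeries K :=
  { placeLaurent v hres π hπ with
    commutes' := fun c => by
      show placeLaurent v hres π hπ (algebraMap K F0 c) = algebraMap K (LaurentSeries K) c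
      rw [placeLaurent_const, algebraMap_laurentSeries_eq_single, HahnSeries.C_apply] }

theorem lamAlg_apply (f : F0) : lamAlg v hres π hπ f = placeLaurent v hres π hπ f := rfl

/-- The Laurent model of `F1`. -/
def laurentModel : IntermediateField L (LaurentSeries L) :=
  IntermediateField.adjoin L
    (⇑(iota K L) '' (((lamAlg v hres π hπ).fieldRange : IntermediateField K (LaurentSeries K)) :
      Set (LaurentSeries K)))

theorem isBC_laurentModel :
    IsBC (lamAlg v hres π hπ).fieldRange (laurentModel (L := L) v hres π hπ) := ⟨rfl⟩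

theorem laurentHom_mem (z : F1) :
    laurentHom S v hres π hπ z ∈ laurentModel (L := L) v hres π hπ := by
  have h := S.gen ((laurentModel (L := L) v hres π hπ).toSubfield.comap
    (laurentHom S v hres π hπ))
    (fun c => by
      rw [Subfield.mem_comap, laurentHom_algebraMap]
      have : (HahnSeries.C c : LaurentSeries L) = algebraMap L (LaurentSeries L) c := by
        rw [algebraMap_laurentSeries_eq_single, HahnSeries.C_apply]
      rw [this]
      exact (laurentModel (L := L) v hres π hπ).algebraMap_mem c)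
    (fun f => by
      rw [Subfield.mem_comap, laurentHom_ι]
      exact IntermediateField.subset_adjoin L _ ⟨placeLaurent v hres π hπ f, ⟨f, rfl⟩, rfl⟩)
  have hz : z ∈ (laurentModel (L := L) v hres π hπ).toSubfield.comap
      (laurentHom S v hres π hπ) := by rw [h]; trivial
  exact hz

include v hres π hπ in
/-- **Descent of fixed elements**: an element of `F1` fixed by `Aut(L/K)` comes from `F0`. -/
theorem exists_ι_eq_of_fixed_aux (hKL : IsFixedBase K L) (x : F1)
    (hx : ∀ σ : L ≃ₐ[K] L, gal S σ • x = x) : ∃ f : F0, S.ι f = x := by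
  obtain ⟨y, hy⟩ := mem_range_iota_of_fixed hKL (x := laurentHom S v hres π hπ x) fun σ => by
    rw [← laurentHom_gal, hx σ]
  have hy' : iota K L y ∈ laurentModel (L := L) v hres π hπ := by
    rw [hy]; exact laurentHom_mem S v hres π hπ x
  obtain ⟨f, hf⟩ := (isBC_laurentModel (L := L) v hres π hπ).mem_of_iota_mem hy'
  refine ⟨f, laurentHom_injective S v hres π hπ ?_⟩
  rw [laurentHom_ι, ← hy]
  congr 1

/-- The equivariant leading coefficient. -/
def lcS (x : F1) : L := (laurentHom S v hres π hπ x).leadingCoeff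

theorem lcS_ne_zero {x : F1} (hx : x ≠ 0) : lcS S v hres π hπ x ≠ 0 := by
  rw [lcS, HahnSeries.leadingCoeff_ne_zero]
  exact (map_ne_zero _).mpr hx

theorem lcS_const_mul (c : L) (x : F1) :
    lcS S v hres π hπ (algebraMap L F1 c * x) = c * lcS S v hres π hπ x := by
  rw [lcS, lcS, map_mul, laurentHom_algebraMap, HahnSeries.leadingCoeff_mul, HahnSeries.C_apply,
    HahnSeries.leadingCoeff_of_single]

theorem lcS_gal_smul (σ : L ≃ₐ[K] L) (x : F1) :
    lcS S v hres π hπ (gal S σ • x) = SemilinearAut.baseAut (gal S σ) (lcS S v hres π hπ x) := by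
  rw [lcS, laurentHom_gal, leadingCoeff_coeffMap]
  rfl

end LaurentTool

/-! ### Places of `F0` -/

include S in
/-- `F0` has a place as soon as it is not `K` and functions on `F1` without zeros and poles are
constant. -/
theorem exists_place_of_setup
    (hK : ∀ v : Place K F0, Function.Surjective (algebraMap K v.ResidueField))
    (hconst : ∀ x : F1, x ≠ 0 → (∀ w : Place L F1, w.ord x = 0) →
      ∃ c : L, x = algebraMap L F1 c)
    (hnc : ∃ x : F0, x ∉ Set.range (algebraMap K F0)) : Nonempty (Place K F0) := by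
  obtain ⟨x₀, hx₀⟩ := hnc
  have hι := S.ι_notMem_range hx₀
  have hι0 : S.ι x₀ ≠ 0 := by
    intro h0
    exact hι ⟨0, by rw [map_zero, h0]⟩
  by_contra hemp
  rw [not_nonempty_iff] at hemp
  have hall : ∀ w : Place L F1, w.ord (S.ι x₀) = 0 := by
    intro w
    by_contra hw
    obtain ⟨v, -⟩ := (S.mem_range_extPlace_iff hK w).mpr ⟨x₀, hw⟩
    exact hemp.false v
  obtain ⟨c, hc⟩ := hconst _ hι0 hall
  exact hι ⟨c, hc.symm⟩

/-! ### Main results -/

section Main

variable [IsAlgClosed K] [IsAlgClosed L]

/-- **Descent of fixed elements** (`K`, `L` algebraically closed). -/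
theorem exists_ι_eq_of_fixed
    (hK : ∀ v : Place K F0, Function.Surjective (algebraMap K v.ResidueField))
    (hne : Nonempty (Place K F0)) (x : F1)
    (hx : ∀ σ : L ≃ₐ[K] L, gal S σ • x = x) : ∃ f : F0, S.ι f = x := by
  obtain ⟨v⟩ := hne
  obtain ⟨π, hπ⟩ := IsDiscreteValuationRing.exists_irreducible v.toValuationSubring
  exact exists_ι_eq_of_fixed_aux S v (hK v) π hπ isFixedBase_of_isAlgClosed x hx

/-- **BC3 for an abstract setup**: `Pic⁰(F0) → Pic⁰(F1)` is injective. -/
theorem bcPic0_injective_of_setup
    (hK : ∀ v : Place K F0, Function.Surjective (algebraMap K v.ResidueField))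
    (hne : Nonempty (Place K F0))
    (hconst : ∀ x : F1, x ≠ 0 → (∀ w : Place L F1, w.ord x = 0) →
      ∃ c : L, x = algebraMap L F1 c) :
    Function.Injective (S.bcPic0 hK) := by
  obtain ⟨v⟩ := hne
  obtain ⟨π, hπ⟩ := IsDiscreteValuationRing.exists_irreducible v.toValuationSubring
  rw [← Setup.extData_bcPic0]
  exact (S.extData hK).bcPic0_injective (gal S) (fun σ f => gal_smul_ι S σ f)
    (lcS S v (hK v) π hπ) (fun x hx => lcS_ne_zero S v (hK v) π hπ hx)
    (lcS_const_mul S v (hK v) π hπ) (lcS_gal_smul S v (hK v) π hπ) hconst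
    (fun x hx => exists_ι_eq_of_fixed S hK ⟨v⟩ x hx)

/-- **BC4b for an abstract setup**: a place of `F1` with finite `Aut(L/K)`-orbit is an extended
place. -/
theorem mem_range_extPlace_of_finite_orbit_of_setup [CharZero K]
    (hK : ∀ v : Place K F0, Function.Surjective (algebraMap K v.ResidueField))
    (hL : ∀ w : Place L F1, Function.Surjective (algebraMap L w.ResidueField))
    (hnc : ∃ x : F0, x ∉ Set.range (algebraMap K F0))
    (w : Place L F1) (hw : (Set.range fun σ : L ≃ₐ[K] L => gal S σ • w).Finite) :
    w ∈ Set.range (S.extPlace hK) :=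
  (S.extData hK).mem_range_ext_of_finite_orbit (gal S) (fun σ f => gal_smul_ι S σ f)
    (fun w u hu => place_exists_residue w (hL w) u hu)
    (fun a ha => infinite_orbit_of_transcendental a (transcendental_of_not_mem_range ha))
    hnc w hw

omit [IsAlgClosed K] [IsAlgClosed L] in
/-- **`hcan` for an abstract setup**. -/
theorem exists_rep_of_finite_orbit_of_setup [HasPrincipalDivisors L F1]
    (hK : ∀ v : Place K F0, Function.Surjective (algebraMap K v.ResidueField))
    (hL : ∀ w : Place L F1, Function.Surjective (algebraMap L w.ResidueField))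
    (hconst : ∀ x : F1, x ≠ 0 → (∀ w : Place L F1, w.ord x = 0) →
      ∃ c : L, x = algebraMap L F1 c)
    (hnc : ∃ x : F0, x ∉ Set.range (algebraMap K F0))
    (x : Pic0 L F1) (hx : (Set.range fun σ : L ≃ₐ[K] L => gal S σ • x).Finite) :
    ∃ D : Divisor.degZero (K := L) (F := F1), Pic0.mk D = x ∧
      ∀ w ∈ (D : Divisor L F1).support,
        (Set.range fun σ : L ≃ₐ[K] L => gal S σ • w).Finite := by
  obtain ⟨v⟩ := exists_place_of_setup S hK hconst hnc
  obtain ⟨x₀, hx₀⟩ := hnc
  exact Fermat.Agent.Gateway.BaseChange.exists_rep_of_finite_orbit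
    (B := poleDivisor (S.ι x₀)) (P := S.extPlace hK v) (gal S)
    (fun σ => smul_poleDivisor _ (gal_smul_ι S σ x₀))
    (fun σ => S.smul_extPlace hK (gal S σ) (fun f => gal_smul_ι S σ f) v)
    (hL _)
    (hne_poleDivisor _ (S.ι_notMem_range hx₀) hL) x hx

variable [CharZero K] [HasPrincipalDivisors L F1]

/-- **BC4 for an abstract setup**: base change is an isomorphism on `n`-torsion, as soon as the
`n`-torsion of `F1` is finite. -/
def torsionEquivOfSetup
    (hK : ∀ v : Place K F0, Function.Surjective (algebraMap K v.ResidueField))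
    (hL : ∀ w : Place L F1, Function.Surjective (algebraMap L w.ResidueField))
    (hconst : ∀ x : F1, x ≠ 0 → (∀ w : Place L F1, w.ord x = 0) →
      ∃ c : L, x = algebraMap L F1 c)
    (hnc : ∃ x : F0, x ∉ Set.range (algebraMap K F0))
    (n : ℕ) [Finite (Pic0.torsion L F1 n)] :
    Pic0.torsion K F0 n ≃+ Pic0.torsion L F1 n :=
  (S.extData hK).bcTorsionEquiv (gal S)
    (by
      rw [Setup.extData_bcPic0]
      exact bcPic0_injective_of_setup S hK (exists_place_of_setup S hK hconst hnc) hconst)
    ((S.extData hK).exists_bcPic0_eq_of_finite_orbit (gal S)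
      (fun w hw => mem_range_extPlace_of_finite_orbit_of_setup S hK hL hnc w hw)
      (exists_rep_of_finite_orbit_of_setup S hK hL hconst hnc)) n

theorem coe_torsionEquivOfSetup
    (hK : ∀ v : Place K F0, Function.Surjective (algebraMap K v.ResidueField))
    (hL : ∀ w : Place L F1, Function.Surjective (algebraMap L w.ResidueField))
    (hconst : ∀ x : F1, x ≠ 0 → (∀ w : Place L F1, w.ord x = 0) →
      ∃ c : L, x = algebraMap L F1 c)
    (hnc : ∃ x : F0, x ∉ Set.range (algebraMap K F0))
    (n : ℕ) [Finite (Pic0.torsion L F1 n)] (y : Pic0.torsion K F0 n) :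
    (torsionEquivOfSetup S hK hL hconst hnc n y : Pic0 L F1) = S.bcPic0 hK (y : Pic0 K F0) :=
  rfl

include S in
/-- **Torsion count under constant field extension, finite upstairs.** -/
theorem card_torsion_eq_of_setup
    (hK : ∀ v : Place K F0, Function.Surjective (algebraMap K v.ResidueField))
    (hL : ∀ w : Place L F1, Function.Surjective (algebraMap L w.ResidueField))
    (hconst : ∀ x : F1, x ≠ 0 → (∀ w : Place L F1, w.ord x = 0) →
      ∃ c : L, x = algebraMap L F1 c)
    (hnc : ∃ x : F0, x ∉ Set.range (algebraMap K F0))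
    (n : ℕ) [Finite (Pic0.torsion L F1 n)] :
    Nat.card (Pic0.torsion K F0 n) = Nat.card (Pic0.torsion L F1 n) :=
  Nat.card_congr (torsionEquivOfSetup S hK hL hconst hnc n).toEquiv

end Main

end Fermat.Agent.S27x.BC.SetupGal
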